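/-
S18lib / CuspK / Norm (helper6): **(CK-1)**, the norm argument bounding the number of poles of `x`.

RRgen variable block (`K` algebraically closed, `F` finite separable over `RatFunc K`, `Binf` an
abstract Dedekind chart over `Ainf K`).
* abstract form: a finite family of valuations `w i` of `F`, trivial on `K`, with `w i x > 1`,
  such that `(∀ i, w i θ = 1) → ∃ i₀, w i₀ (N θ) = 1`; then every prime of `Binf` is the centre of
  some `w i` (`exists_center_eq`), hence `#poles x = #primes of Binf ≤ #(classes of valuations)`.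
* concrete form (`card_polesOf_le`): the valuations come from a `Finset` of embeddings
  `σ : F →+* LaurentSeries K`.
-/
import Mathlib
import Fermat.Agent.S18lib.RRgen.Places
import Fermat.Agent.S18lib.RHCount.InftyChart
import Fermat.Agent.S18lib.Tame.Count

set_option autoImplicit false
set_option linter.unusedSectionVars false

noncomputable section

namespace Fermat.Agent.S18lib.CuspK

open Module Polynomial IsDedekindDomain AlgebraicCurve WithZero
open Fermat.Agent.ProgramR Fermat.Agent.ProgramR.RR Fermat.Agent.ProgramR.Alg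

section Abstract

variable (K : Type*) [Field K] [IsAlgClosed K]
  (F : Type*) [Field F] [Algebra (RatFunc K) F] [FiniteDimensional (RatFunc K) F]
  [Algebra.IsSeparable (RatFunc K) F] [Algebra K F] [IsScalarTower K (RatFunc K) F]
  (Binf : Type*) [CommRing Binf] [IsDedekindDomain Binf] [Algebra (Ainf K) Binf]
  [Module.Finite (Ainf K) Binf] [IsTorsionFree (Ainf K) Binf] [Algebra Binf F]
  [IsFractionRing Binf F] [Algebra (Ainf K) F] [IsScalarTower (Ainf K) (RatFunc K) F]
  [IsScalarTower (Ainf K) Binf F]
  [Algebra K Binf] [IsScalarTower K Binf F]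

variable {Γ : Type*} [LinearOrderedCommGroupWithZero Γ]

variable {K F}

/-- elements integral over a subring of a valuation ring lie in the valuation ring. -/
theorem mem_valuationSubring_of_isIntegral (A : ValuationSubring F) {S : Type*} [CommRing S]
    [Algebra S F] (hS : ∀ s : S, algebraMap S F s ∈ A) {f : F} (hf : IsIntegral S f) : f ∈ A := by
  obtain ⟨q, hmonic, hq⟩ := hf
  let φ : S →+* A := (algebraMap S F).codRestrict A.toSubring hS
  have hint : IsIntegral A f := by
    refine ⟨q.map φ, hmonic.map φ, ?_⟩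
    rw [Polynomial.eval₂_map]
    exact hq
  obtain ⟨y, hy⟩ := (IsIntegrallyClosed.isIntegral_iff (R := A) (K := F)).mp hint
  rw [← hy]
  exact y.2

variable (w : Valuation F Γ) (hc : ∀ c : K, w (algebraMap K F c) ≤ 1)
  (hx : 1 < w (RRgen.xF K F))

include hc hx in
/-- `Ainf` lies in the valuation ring of a valuation at which `x` has a pole. -/
theorem valuation_algebraMap_Ainf_le_one (r : Ainf K) : w (algebraMap (Ainf K) F r) ≤ 1 := by
  rw [IsScalarTower.algebraMap_apply (Ainf K) (RatFunc K) F]
  have h := CuspLocal.algebraMap_mem_of_mem_Ainf (k := K) (F := F) w.valuationSubring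
    (fun c => ?_) ?_ r.2
  · exact (Valuation.mem_valuationSubring_iff w _).mp h
  · rw [Valuation.mem_valuationSubring_iff]
    have : algebraMap (RatFunc K) F (RatFunc.C c) = algebraMap K F c := by
      rw [IsScalarTower.algebraMap_apply K (RatFunc K) F]
      rfl
    rw [this]
    exact hc c
  · rw [Valuation.mem_valuationSubring_iff]
    exact not_le.mpr hx

include hc hx in
/-- the chart at infinity lies in the valuation ring. -/
theorem valuation_algebraMap_Binf_le_one (b : Binf) : w (algebraMap Binf F b) ≤ 1 := by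
  rw [← Valuation.mem_valuationSubring_iff]
  refine mem_valuationSubring_of_isIntegral w.valuationSubring (S := Ainf K) (fun r => ?_)
    ((Algebra.IsIntegral.isIntegral (R := Ainf K) b).map (IsScalarTower.toAlgHom (Ainf K) Binf F))
  rw [Valuation.mem_valuationSubring_iff]
  exact valuation_algebraMap_Ainf_le_one w hc hx r

/-- the centre on `Binf` of a valuation at which `x` has a pole. -/
def center : Ideal Binf where
  carrier := {b | w (algebraMap Binf F b) < 1}
  add_mem' := by
    intro a b ha hb
    simp only [Set.mem_ofPred_eq, map_add] at ha hb ⊢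
    exact lt_of_le_of_lt (w.map_add _ _) (max_lt ha hb)
  zero_mem' := by simp
  smul_mem' := by
    intro c b hb
    simp only [Set.mem_ofPred_eq, smul_eq_mul, map_mul] at hb ⊢
    exact mul_lt_one_of_nonneg_of_lt_one_right (valuation_algebraMap_Binf_le_one (Binf := Binf) w hc hx c)
      zero_le hb

theorem mem_center {b : Binf} :
    b ∈ center (Binf := Binf) w hc hx ↔ w (algebraMap Binf F b) < 1 := Iff.rfl

theorem center_isPrime : (center (Binf := Binf) w hc hx).IsPrime := by
  refine ⟨?_, ?_⟩
  · rw [Ne, Ideal.eq_top_iff_one, mem_center, map_one, map_one]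
    exact lt_irrefl _
  · intro a b hab
    rw [mem_center, map_mul, map_mul] at hab
    by_contra hcon
    rw [not_or, mem_center, mem_center, not_lt, not_lt] at hcon
    have ha := le_antisymm (valuation_algebraMap_Binf_le_one (Binf := Binf) w hc hx a) hcon.1
    have hb := le_antisymm (valuation_algebraMap_Binf_le_one (Binf := Binf) w hc hx b) hcon.2
    rw [ha, hb, mul_one] at hab
    exact lt_irrefl _ hab

theorem xinv_mem_center :
    algebraMap (Ainf K) Binf XinvAinf ∈ center (Binf := Binf) w hc hx := by
  rw [mem_center, RHCount.algebraMap_XinvAinf_eq K F Binf, map_inv₀]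
  exact inv_lt_one_of_one_lt₀ hx

theorem center_ne_bot : center (Binf := Binf) w hc hx ≠ ⊥ := by
  intro h
  have h1 := xinv_mem_center Binf w hc hx
  rw [h, Ideal.mem_bot] at h1
  exact RHCount.algebraMap_XinvAinf_ne_zero' K Binf h1

/-- the centre as a point of the height-one spectrum. -/
def centerSpec : HeightOneSpectrum Binf :=
  ⟨center (Binf := Binf) w hc hx, center_isPrime Binf w hc hx, center_ne_bot Binf w hc hx⟩

end Abstract

section Main

variable (K : Type*) [Field K] [IsAlgClosed K]
  (F : Type*) [Field F] [Algebra (RatFunc K) F] [FiniteDimensional (RatFunc K) F]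
  [Algebra.IsSeparable (RatFunc K) F] [Algebra K F] [IsScalarTower K (RatFunc K) F]
  (Binf : Type*) [CommRing Binf] [IsDedekindDomain Binf] [Algebra (Ainf K) Binf]
  [Module.Finite (Ainf K) Binf] [IsTorsionFree (Ainf K) Binf] [Algebra Binf F]
  [IsFractionRing Binf F] [Algebra (Ainf K) F] [IsScalarTower (Ainf K) (RatFunc K) F]
  [IsScalarTower (Ainf K) Binf F]
  [Algebra K Binf] [IsScalarTower K Binf F]

variable {Γ : Type*} [LinearOrderedCommGroupWithZero Γ]

variable {K F}

variable {ι : Type*} [Finite ι] (w : ι → Valuation F Γ)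
  (hc : ∀ i, ∀ c : K, w i (algebraMap K F c) ≤ 1)
  (hx : ∀ i, 1 < w i (RRgen.xF K F))
  (hN : ∀ θ : F, (∀ i, w i θ = 1) →
    ∃ i, w i (algebraMap (RatFunc K) F (Algebra.norm (RatFunc K) θ)) = 1)

include hN in
/-- **Norm argument**: every prime of the chart at infinity is the centre of one of the
valuations. -/
theorem exists_center_eq (P : HeightOneSpectrum Binf) :
    ∃ i, P.asIdeal = center Binf (w i) (hc i) (hx i) := by
  classical
  have := Fintype.ofFinite ι
  by_contra hne
  rw [not_exists] at hne
  obtain ⟨i₁, -⟩ := hN 1 (fun i => map_one _)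
  have hnle : ∀ i, ¬ P.asIdeal ≤ center Binf (w i) (hc i) (hx i) := by
    intro i hle
    exact hne i (P.isMaximal.eq_of_le (center_isPrime Binf (w i) (hc i) (hx i)).ne_top hle)
  have hnot : ¬ ((P.asIdeal : Set Binf) ⊆
      ⋃ i ∈ ((Finset.univ : Finset ι) : Set ι), (center Binf (w i) (hc i) (hx i) : Set Binf)) := by
    intro hsub
    obtain ⟨i, -, hi⟩ := (Ideal.subset_union_prime (s := (Finset.univ : Finset ι))
      (f := fun i => center Binf (w i) (hc i) (hx i)) i₁ i₁
      (fun i _ _ _ => center_isPrime Binf (w i) (hc i) (hx i))).mp hsub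
    exact hnle i hi
  obtain ⟨θ, hθP, hθ⟩ := Set.not_subset.mp hnot
  have hθ1 : ∀ i, w i (algebraMap Binf F θ) = 1 := by
    intro i
    refine le_antisymm (valuation_algebraMap_Binf_le_one Binf (w i) (hc i) (hx i) θ) ?_
    by_contra hlt
    apply hθ
    simp only [Set.mem_iUnion]
    exact ⟨i, Finset.mem_coe.mpr (Finset.mem_univ i), not_le.mp hlt⟩
  obtain ⟨i₀, hi₀⟩ := hN _ hθ1
  have : IsIntegralClosure Binf (Ainf K) F := IsIntegralClosure.of_isIntegrallyClosed _ _ _
  rw [← Algebra.algebraMap_intNorm (A := Ainf K) (B := Binf) (K := RatFunc K) (L := F) θ,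
    ← IsScalarTower.algebraMap_apply (Ainf K) (RatFunc K) F,
    IsScalarTower.algebraMap_apply (Ainf K) Binf F] at hi₀
  have hmem : algebraMap (Ainf K) Binf (Algebra.intNorm (Ainf K) Binf θ) ∈ P.asIdeal :=
    Ideal.mem_of_dvd _ (Algebra.dvd_algebraMap_intNorm_self (Ainf K) Binf θ) hθP
  have hmem' : Algebra.intNorm (Ainf K) Binf θ ∈ IsLocalRing.maximalIdeal (Ainf K) := by
    have := P.isPrime
    rw [← RHCount.comap_eq_maximalIdeal' K P.asIdeal P.ne_bot]
    exact hmem
  rw [maximalIdeal_Ainf_eq, Ideal.mem_span_singleton'] at hmem'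
  obtain ⟨a, ha⟩ := hmem'
  rw [← ha, map_mul, map_mul, map_mul] at hi₀
  have h1 := xinv_mem_center Binf (w i₀) (hc i₀) (hx i₀)
  rw [mem_center] at h1
  have h2 := valuation_algebraMap_Binf_le_one Binf (w i₀) (hc i₀) (hx i₀)
    (algebraMap (Ainf K) Binf a)
  have h3 : w i₀ (algebraMap Binf F (algebraMap (Ainf K) Binf a)) *
      w i₀ (algebraMap Binf F (algebraMap (Ainf K) Binf XinvAinf)) < 1 :=
    mul_lt_one_of_nonneg_of_lt_one_right h2 zero_le h1
  rw [hi₀] at h3
  exact lt_irrefl _ h3

include hc hx hN in
/-- the number of primes of the chart at infinity is at most the number of classes of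
valuations, for any equivalence relation finer than "same centre". -/
theorem card_heightOneSpectrum_le (r : Setoid ι)
    (hr : ∀ i j, r i j → ∀ θ : F, w i θ < 1 ↔ w j θ < 1) :
    Nat.card (HeightOneSpectrum Binf) ≤ Nat.card (Quotient r) := by
  let f : Quotient r → HeightOneSpectrum Binf :=
    Quotient.lift (fun i => centerSpec Binf (w i) (hc i) (hx i)) (by
      intro i j hij
      apply HeightOneSpectrum.ext
      ext b
      exact hr i j hij _)
  have hf : Function.Surjective f := by
    intro P
    obtain ⟨i, hi⟩ := exists_center_eq Binf w hc hx hN P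
    exact ⟨Quotient.mk r i, HeightOneSpectrum.ext hi.symm⟩
  exact Nat.card_le_card_of_surjective f hf

include Binf hc hx hN in
/-- **(CK-1), valuation form**: the number of poles of `x` is at most the number of classes of
valuations. -/
theorem card_polesOf_le_of_valuations (r : Setoid ι)
    (hr : ∀ i j, r i j → ∀ θ : F, w i θ < 1 ↔ w j θ < 1) :
    Nat.card (Tame.polesOf (K := K) (RRgen.xF K F)) ≤ Nat.card (Quotient r) := by
  have h1 : Nat.card (Tame.polesOf (K := K) (RRgen.xF K F)) =
      Nat.card (HeightOneSpectrum Binf) := by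
    rw [← RHCount.card_primesOverFinset_maximalIdeal K Binf, ← RHCount.card_polar_eq K F Binf]
    rfl
  rw [h1]
  exact card_heightOneSpectrum_le Binf w hc hx hN r hr

end Main

section Laurent

variable {K : Type*} [Field K]

/-- constants have valuation at most one. -/
theorem valuation_C_le_one (c : K) :
    (Valued.v : Valuation (LaurentSeries K) ℤᵐ⁰) (HahnSeries.C c) ≤ 1 := by
  have h := (LaurentSeries.valuation_le_iff_coeff_lt_eq_zero K (D := 0)
    (f := (HahnSeries.C c : LaurentSeries K))).mpr (fun n hn => by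
      rw [HahnSeries.C_apply, HahnSeries.coeff_single_of_ne hn.ne])
  simpa using h

/-- a Laurent series of negative order has valuation bigger than one. -/
theorem one_lt_valuation_of_order_neg {f : LaurentSeries K} (hf : f.order < 0) :
    1 < (Valued.v : Valuation (LaurentSeries K) ℤᵐ⁰) f := by
  have hf0 : f ≠ 0 := by
    rintro rfl
    rw [HahnSeries.order_zero] at hf
    exact lt_irrefl _ hf
  by_contra hle
  rw [not_lt] at hle
  have h1 : (Valued.v : Valuation (LaurentSeries K) ℤᵐ⁰) f ≤ exp (-(0 : ℤ)) := by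
    simpa using hle
  have h := (LaurentSeries.valuation_le_iff_coeff_lt_eq_zero K (D := 0) (f := f)).mp h1 _ hf
  exact hf0 (HahnSeries.coeff_order_eq_zero.mp h)

/-- valuation less than one means zero or positive order. -/
theorem valuation_lt_one_iff {f : LaurentSeries K} :
    (Valued.v : Valuation (LaurentSeries K) ℤᵐ⁰) f < 1 ↔ f = 0 ∨ 0 < f.order := by
  have h1 : (Valued.v : Valuation (LaurentSeries K) ℤᵐ⁰) f < 1 ↔
      (Valued.v : Valuation (LaurentSeries K) ℤᵐ⁰) f ≤ exp (-(1 : ℤ)) := by
    have := WithZero.lt_mul_exp_iff_le (x := (Valued.v : Valuation (LaurentSeries K) ℤᵐ⁰) f)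
      (y := exp (-(1 : ℤ))) (by simp)
    rw [← exp_add] at this
    simpa using this
  rw [h1, LaurentSeries.valuation_le_iff_coeff_lt_eq_zero]
  constructor
  · intro h
    by_cases hf0 : f = 0
    · exact Or.inl hf0
    right
    by_contra hle
    have : f.order < 1 := by omega
    exact hf0 (HahnSeries.coeff_order_eq_zero.mp (h _ this))
  · rintro (rfl | h) n hn
    · simp
    · exact HahnSeries.coeff_eq_zero_of_lt_order (by omega)

end Laurent

section Embeddings

variable (K : Type*) [Field K] [IsAlgClosed K]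
  (F : Type*) [Field F] [Algebra (RatFunc K) F] [FiniteDimensional (RatFunc K) F]
  [Algebra.IsSeparable (RatFunc K) F] [Algebra K F] [IsScalarTower K (RatFunc K) F]
  (Binf : Type*) [CommRing Binf] [IsDedekindDomain Binf] [Algebra (Ainf K) Binf]
  [Module.Finite (Ainf K) Binf] [IsTorsionFree (Ainf K) Binf] [Algebra Binf F]
  [IsFractionRing Binf F] [Algebra (Ainf K) F] [IsScalarTower (Ainf K) (RatFunc K) F]
  [IsScalarTower (Ainf K) Binf F]
  [Algebra K Binf] [IsScalarTower K Binf F]

include Binf in
/-- **(CK-1), embedding form.** `S` a finite set of embeddings `F → K((u))` which are the identity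
on the constants, at which `x` has a pole, and such that the norm of every `θ` is (under some
`σ₀ ∈ S`) the product of the `σ θ`.  Then `x` has at most as many poles as there are classes of
embeddings, for any equivalence relation on `S` finer than "same positive-order elements". -/
theorem card_polesOf_le (S : Finset (F →+* LaurentSeries K))
    (ha : ∀ σ ∈ S, ∀ c : K, σ (algebraMap K F c) = HahnSeries.C c)
    (hb : ∀ σ ∈ S, (σ (RRgen.xF K F)).order < 0)
    (hcN : ∀ θ : F, ∃ σ₀ ∈ S,
      σ₀ (algebraMap (RatFunc K) F (Algebra.norm (RatFunc K) θ)) = ∏ σ ∈ S, σ θ)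
    (r : Setoid {σ // σ ∈ S})
    (hd : ∀ σ σ' : {σ // σ ∈ S}, r σ σ' →
      ∀ θ : F, 0 < (σ.1 θ).order ↔ 0 < (σ'.1 θ).order) :
    Nat.card (Tame.polesOf (K := K) (RRgen.xF K F)) ≤ Nat.card (Quotient r) := by
  classical
  let w : {σ // σ ∈ S} → Valuation F ℤᵐ⁰ := fun σ =>
    (Valued.v : Valuation (LaurentSeries K) ℤᵐ⁰).comap σ.1
  have hw : ∀ (σ : {σ // σ ∈ S}) (θ : F), w σ θ = Valued.v (σ.1 θ) := fun _ _ => rfl
  refine card_polesOf_le_of_valuations Binf w (fun σ c => ?_) (fun σ => ?_) (fun θ hθ => ?_) r
    (fun σ σ' hσ θ => ?_)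
  · rw [hw, ha σ.1 σ.2 c]
    exact valuation_C_le_one c
  · rw [hw]
    exact one_lt_valuation_of_order_neg (hb σ.1 σ.2)
  · obtain ⟨σ₀, hσ₀, hprod⟩ := hcN θ
    refine ⟨⟨σ₀, hσ₀⟩, ?_⟩
    rw [hw, hprod, map_prod]
    exact Finset.prod_eq_one fun σ hσ => hθ ⟨σ, hσ⟩
  · rw [hw, hw, valuation_lt_one_iff, valuation_lt_one_iff, map_eq_zero, map_eq_zero,
      hd σ σ' hσ θ]

end Embeddings

end Fermat.Agent.S18lib.CuspK
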